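/-
T1B (S44), brick CMP / (R2) `TargetHyp` (helper26, second to helper15): abstract half, part 1.

`laurentMul k k'` : `k' ⊗[k] k((q)) → k'((q))`, `x ⊗ f ↦ x • f` (coefficients of `f` mapped to `k'`),
for a field extension `k'/k`, and its INJECTIVITY (`laurentMul_injective`, basis argument).

Consequences used for `TargetHyp`:
* `tensorLaurent` : for a `k`-algebra `B` with a `k`-algebra map `e : B → k((q))`, the ring hom
  `k' ⊗[k] B → k'((q))`; injective as soon as `e` is (`tensorLaurent_injective`), hence
  `k' ⊗[k] B` is a domain.
-/
import Mathlib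
import Fermat.Prelude.Def_ModularCurve_LaurentCoeff

set_option autoImplicit false

open TensorProduct ModularCurve

noncomputable section

namespace Fermat.Agent.T1B.Cmp26

section Core

variable (k k' : Type*) [Field k] [Field k'] [Algebra k k']

theorem coeffMap_smul_algebraMap (c : k) (f : LaurentSeries k) :
    coeffMap (algebraMap k k') (c • f) = c • coeffMap (algebraMap k k') f := by
  ext n
  simp [Algebra.smul_def]

/-- `k' ⊗[k] k((q)) → k'((q))`, `x ⊗ f ↦ x • f`. -/
def laurentMul : k' ⊗[k] LaurentSeries k →ₗ[k] LaurentSeries k' :=
  TensorProduct.lift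
    (LinearMap.mk₂ k (fun (x : k') (f : LaurentSeries k) => x • coeffMap (algebraMap k k') f)
      (fun x y f => add_smul x y _)
      (fun c x f => smul_assoc c x _)
      (fun x f g => by simp only [map_add, smul_add])
      (fun c x f => by
        simp only [coeffMap_smul_algebraMap]
        exact smul_comm x c _))

@[simp] theorem laurentMul_tmul (x : k') (f : LaurentSeries k) :
    laurentMul k k' (x ⊗ₜ[k] f) = x • coeffMap (algebraMap k k') f := rfl

theorem laurentMul_injective : Function.Injective (laurentMul k k') := by
  classical
  rw [injective_iff_map_eq_zero]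
  intro z hz
  let b := Module.Basis.ofVectorSpace k k'
  obtain ⟨f, rfl⟩ :=
    (TensorProduct.equivFinsuppOfBasisLeft (N := LaurentSeries k) b).symm.surjective z
  rw [TensorProduct.equivFinsuppOfBasisLeft_symm_apply] at hz
  suffices h : f = 0 by rw [h, map_zero]
  ext i n
  rw [Finsupp.sum, map_sum] at hz
  have hn := congrArg (fun g : LaurentSeries k' => g.coeff n) hz
  simp only [laurentMul_tmul, HahnSeries.coeff_sum, HahnSeries.coeff_smul, coeffMap_coeff,
    HahnSeries.coeff_zero, smul_eq_mul] at hn
  have hli := b.linearIndependent
  rw [linearIndependent_iff'] at hli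
  have := hli f.support (fun j => (f j).coeff n) (by
    rw [← hn]
    refine Finset.sum_congr rfl fun j _ => ?_
    rw [Algebra.smul_def, mul_comm])
  by_cases hi : i ∈ f.support
  · simpa using this i hi
  · rw [Finsupp.notMem_support_iff.mp hi]
    rfl

end Core

end Fermat.Agent.T1B.Cmp26
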