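/-
T1B (S44), brick CMP / (R2) `TargetHyp` (helper26, second to helper15): abstract half, part 2.

Setting: `W → O` commutative rings (`W` the inertial number-field DVR, `O` a possibly ramified and
complete DVR over it), `k`, `k'` fields playing the role of the residue fields of `W`, `O`
(`W → k` surjective killing `π`; `O → k'` surjective with kernel `(ϖ)`), `B` a `W`-algebra (a chart
ring of the smooth target model) with a reduced `q`-expansion `ε : B →+* k((q))`
(`hεW : ε (w • 1) = C w̄`) satisfying the `q`-expansion principle `hker : ε b = 0 → b ∈ π B`.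
NO `Algebra W (LaurentSeries _)` structure is used anywhere (Mathlib has a non-defeq diamond there);
Laurent series are only `k`- resp. `W`-modules coefficientwise.

* `redLin_injective`        : `k ⊗[W] B → k((q))`, `c ⊗ b ↦ c • ε b`, is injective;
* `specLin_injective`       : `k' ⊗[W] B → k'((q))` is injective;
* `specHom`, `ker_specHom`  : the ring hom `O ⊗[W] B → k'((q))` has kernel `(ϖ)`;
* `prime_algebraMap_tensor` : **`ϖ` is a prime element of `O ⊗[W] B`**;
* `map_id_injective`        : `O ⊗[W] B → O ⊗[W] B'` is injective for `B → B'` injective, `O` flat.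
-/
import Mathlib
import Fermat.Agent.T1B.Cmp26.LaurentTensor

set_option autoImplicit false
set_option linter.unusedSectionVars false

open TensorProduct ModularCurve

noncomputable section

namespace Fermat.Agent.T1B.Cmp26

section S0

variable {W : Type*} [CommRing W] {B : Type*} [CommRing B] [Algebra W B]
  (k : Type*) [Field k] [Algebra W k]
  (ε : B →+* LaurentSeries k)
  (hεW : ∀ w : W, ε (algebraMap W B w) = HahnSeries.C (algebraMap W k w))

include hεW in
theorem eps_smul (w : W) (b : B) : ε (w • b) = w • ε b := by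
  rw [Algebra.smul_def, map_mul, hεW, HahnSeries.C_mul_eq_smul, algebraMap_smul]

/-- the bilinear map `(c, b) ↦ c • ε b`. -/
def redBil : k →ₗ[k] B →ₗ[W] LaurentSeries k where
  toFun c :=
    { toFun := fun b => c • ε b
      map_add' := fun b b' => by rw [map_add, smul_add]
      map_smul' := fun w b => by
        rw [eps_smul k ε hεW, RingHom.id_apply, smul_comm] }
  map_add' c d := by
    ext b : 1
    exact add_smul c d _
  map_smul' c d := by
    ext b : 1
    exact mul_smul c d _

/-- `k ⊗[W] B → k((q))`, `c ⊗ b ↦ c • ε b`. -/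
def redLin : k ⊗[W] B →ₗ[k] LaurentSeries k :=
  TensorProduct.AlgebraTensorModule.lift (redBil k ε hεW)

@[simp] theorem redLin_tmul (c : k) (b : B) : redLin k ε hεW (c ⊗ₜ b) = c • ε b := rfl

variable {k ε} in
theorem redLin_injective (hk : Function.Surjective (algebraMap W k)) (π : W)
    (hπk : algebraMap W k π = 0)
    (hker : ∀ b : B, ε b = 0 → ∃ b' : B, b = algebraMap W B π * b') :
    Function.Injective (redLin k ε hεW) := by
  rw [injective_iff_map_eq_zero]
  intro z hz
  have hone : ∀ z : k ⊗[W] B, ∃ b : B, z = (1 : k) ⊗ₜ[W] b := by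
    intro z
    induction z using TensorProduct.induction_on with
    | zero => exact ⟨0, (tmul_zero _ _).symm⟩
    | tmul c b =>
      obtain ⟨w, rfl⟩ := hk c
      refine ⟨w • b, ?_⟩
      rw [← smul_tmul, Algebra.smul_def, mul_one]
    | add x y hx hy =>
      obtain ⟨b, rfl⟩ := hx
      obtain ⟨b', rfl⟩ := hy
      exact ⟨b + b', (tmul_add _ _ _).symm⟩
  obtain ⟨b, rfl⟩ := hone z
  rw [redLin_tmul, one_smul] at hz
  obtain ⟨b', rfl⟩ := hker b hz
  rw [← Algebra.smul_def, ← smul_tmul, Algebra.smul_def, hπk, zero_mul, zero_tmul]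

end S0

section S1

variable {W : Type*} [CommRing W] {B : Type*} [CommRing B] [Algebra W B]
  (k : Type*) [Field k] [Algebra W k]
  (ε : B →+* LaurentSeries k)
  (hεW : ∀ w : W, ε (algebraMap W B w) = HahnSeries.C (algebraMap W k w))
  (k' : Type*) [Field k'] [Algebra k k'] [Algebra W k'] [IsScalarTower W k k']

/-- `k' ⊗[W] B → k'((q))`, `x ⊗ b ↦ x • ε b` (coefficients mapped to `k'`). -/
def specLin : k' ⊗[W] B →ₗ[k] LaurentSeries k' :=
  laurentMul k k' ∘ₗ LinearMap.lTensor k' (redLin k ε hεW) ∘ₗ
    (TensorProduct.AlgebraTensorModule.cancelBaseChange W k k k' B).symm.toLinearMap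

@[simp] theorem specLin_tmul (x : k') (b : B) :
    specLin k ε hεW k' (x ⊗ₜ b) = x • coeffMap (algebraMap k k') (ε b) := by
  simp [specLin]

variable {k ε} in
theorem specLin_injective (hk : Function.Surjective (algebraMap W k)) (π : W)
    (hπk : algebraMap W k π = 0)
    (hker : ∀ b : B, ε b = 0 → ∃ b' : B, b = algebraMap W B π * b') :
    Function.Injective (specLin k ε hεW k') := by
  have h1 := redLin_injective hεW hk π hπk hker
  have h2 : Function.Injective (LinearMap.lTensor k' (redLin k ε hεW)) :=
    Module.Flat.lTensor_preserves_injective_linearMap _ h1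
  have h3 := laurentMul_injective k k'
  have h4 := (TensorProduct.AlgebraTensorModule.cancelBaseChange W k k k' B).symm.injective
  exact h3.comp (h2.comp h4)

end S1

section S2

variable {W : Type*} [CommRing W] {B : Type*} [CommRing B] [Algebra W B]
  (k : Type*) [Field k] [Algebra W k]
  (ε : B →+* LaurentSeries k)
  (hεW : ∀ w : W, ε (algebraMap W B w) = HahnSeries.C (algebraMap W k w))
  (k' : Type*) [Field k'] [Algebra k k'] [Algebra W k'] [IsScalarTower W k k']
  (O : Type*) [CommRing O] [Algebra W O] [Algebra O k'] [IsScalarTower W O k']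

theorem coeffMap_C {R S : Type*} [CommRing R] [CommRing S] (f : R →+* S) (r : R) :
    coeffMap f (HahnSeries.C r) = HahnSeries.C (f r) := by
  rw [HahnSeries.C_apply, coeffMap_single, HahnSeries.C_apply]

theorem specLin_one : specLin k ε hεW k' (1 : k' ⊗[W] B) = 1 := by
  rw [Algebra.TensorProduct.one_def, specLin_tmul, map_one, map_one, one_smul]

theorem specLin_mul (u v : k' ⊗[W] B) :
    specLin k ε hεW k' (u * v) = specLin k ε hεW k' u * specLin k ε hεW k' v := by
  induction u using TensorProduct.induction_on with
  | zero => simp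
  | tmul x b =>
    induction v using TensorProduct.induction_on with
    | zero => simp
    | tmul y b' =>
      rw [Algebra.TensorProduct.tmul_mul_tmul, specLin_tmul, specLin_tmul, specLin_tmul, map_mul,
        map_mul, ← HahnSeries.C_mul_eq_smul, ← HahnSeries.C_mul_eq_smul,
        ← HahnSeries.C_mul_eq_smul, map_mul]
      ring
    | add v w hv hw => rw [mul_add, map_add, map_add, hv, hw, mul_add]
  | add u w hu hw => rw [add_mul, map_add, map_add, hu, hw, add_mul]

/-- `specLin` as a ring hom. -/
def specRing : k' ⊗[W] B →+* LaurentSeries k' where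
  toFun := specLin k ε hεW k'
  map_one' := specLin_one k ε hεW k'
  map_mul' := specLin_mul k ε hεW k'
  map_zero' := map_zero _
  map_add' := map_add _

@[simp] theorem specRing_apply (z : k' ⊗[W] B) :
    specRing k ε hεW k' z = specLin k ε hεW k' z := rfl

/-- the ring hom `O ⊗[W] B → k'((q))`, `r ⊗ b ↦ r̄ • ε b`. -/
def specHom : O ⊗[W] B →+* LaurentSeries k' :=
  (specRing k ε hεW k').comp
    (Algebra.TensorProduct.map (IsScalarTower.toAlgHom W O k') (AlgHom.id W B)).toRingHom

@[simp] theorem specHom_tmul (r : O) (b : B) :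
    specHom k ε hεW k' O (r ⊗ₜ b) =
      algebraMap O k' r • coeffMap (algebraMap k k') (ε b) := by
  simp [specHom]

variable {k ε k' O} in
/-- **The kernel of `O ⊗[W] B → k'((q))` is generated by `ϖ`.** -/
theorem ker_specHom (hk : Function.Surjective (algebraMap W k)) (π : W)
    (hπk : algebraMap W k π = 0)
    (hker : ∀ b : B, ε b = 0 → ∃ b' : B, b = algebraMap W B π * b')
    (hk' : Function.Surjective (algebraMap O k')) (ϖ : O)
    (hϖ : RingHom.ker (algebraMap O k') = Ideal.span {ϖ}) :
    RingHom.ker (specHom k ε hεW k' O) = Ideal.span {algebraMap O (O ⊗[W] B) ϖ} := by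
  have hinj : Function.Injective (specRing k ε hεW k') := specLin_injective hεW k' hk π hπk hker
  have h1 : RingHom.ker (specHom k ε hεW k' O) =
      RingHom.ker (Algebra.TensorProduct.map (IsScalarTower.toAlgHom W O k') (AlgHom.id W B)) := by
    ext z
    rw [RingHom.mem_ker, RingHom.mem_ker, specHom, RingHom.comp_apply,
      map_eq_zero_iff _ hinj]
    rfl
  rw [h1, Algebra.TensorProduct.rTensor_ker _ (by exact hk')]
  have h2 : RingHom.ker (IsScalarTower.toAlgHom W O k') = Ideal.span {ϖ} := by
    rw [← hϖ]
    rfl
  rw [h2, Ideal.map_span, Set.image_singleton]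
  rfl

variable {k ε k' O} in
include hεW in
/-- **`ϖ` is a prime element of `O ⊗[W] B`** (`hne`: it is nonzero there). -/
theorem prime_of_ne_zero (hk : Function.Surjective (algebraMap W k)) (π : W)
    (hπk : algebraMap W k π = 0)
    (hker : ∀ b : B, ε b = 0 → ∃ b' : B, b = algebraMap W B π * b')
    (hk' : Function.Surjective (algebraMap O k')) (ϖ : O)
    (hϖ : RingHom.ker (algebraMap O k') = Ideal.span {ϖ})
    (hne : algebraMap O (O ⊗[W] B) ϖ ≠ 0) :
    Prime (algebraMap O (O ⊗[W] B) ϖ) := by
  rw [← Ideal.span_singleton_prime hne, ← ker_specHom hεW hk π hπk hker hk' ϖ hϖ]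
  exact RingHom.ker_isPrime _

/-- `O → O ⊗[W] B` is injective for `O` flat and `W → B` injective. -/
theorem algebraMap_tensor_injective [Module.Flat W O]
    (hB : Function.Injective (algebraMap W B)) :
    Function.Injective (algebraMap O (O ⊗[W] B)) := by
  have h := Algebra.TensorProduct.includeLeft_injective (R := W) (S := O) (A := O) (B := B) hB
  intro x y hxy
  exact h hxy

variable {k ε k' O} in
include hεW in
/-- **`ϖ` is a prime element of `O ⊗[W] B`**: `O` flat over `W`, `W → B` injective, `ϖ ≠ 0`,
`k'= O/(ϖ)`, `k = W/(π)`-ish (`W → k` onto, killing `π`), `ε : B → k((q))` with the `q`-expansion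
principle `ε b = 0 → b ∈ π B`. -/
theorem prime_algebraMap_tensor [Module.Flat W O]
    (hB : Function.Injective (algebraMap W B))
    (hk : Function.Surjective (algebraMap W k)) (π : W)
    (hπk : algebraMap W k π = 0)
    (hker : ∀ b : B, ε b = 0 → ∃ b' : B, b = algebraMap W B π * b')
    (hk' : Function.Surjective (algebraMap O k')) (ϖ : O) (hϖ0 : ϖ ≠ 0)
    (hϖ : RingHom.ker (algebraMap O k') = Ideal.span {ϖ}) :
    Prime (algebraMap O (O ⊗[W] B) ϖ) :=
  prime_of_ne_zero hεW hk π hπk hker hk' ϖ hϖ
    (fun h => hϖ0 (algebraMap_tensor_injective O hB (h.trans (map_zero _).symm)))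

/-- restriction to the overlap stays injective after a flat base change. -/
theorem map_id_injective [Module.Flat W O] {B' : Type*} [CommRing B'] [Algebra W B']
    (ρ : B →ₐ[W] B') (hρ : Function.Injective ρ) :
    Function.Injective (Algebra.TensorProduct.map (AlgHom.id O O) ρ) := by
  have h : Function.Injective (LinearMap.lTensor O ρ.toLinearMap) :=
    Module.Flat.lTensor_preserves_injective_linearMap _ hρ
  intro x y hxy
  apply h
  exact hxy

end S2

section Residue

open IsLocalRing

variable {W : Type*} [CommRing W] [IsLocalRing W] {O : Type*} [CommRing O] [IsLocalRing O]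
  [Algebra W O] [IsLocalHom (algebraMap W O)] {B : Type*} [CommRing B] [Algebra W B]

/-- **Local-ring form** of `prime_algebraMap_tensor`: `k = ResidueField W`, `k' = ResidueField O`
(`O` may be ramified over `W`; nothing is assumed about `ResidueField W → ResidueField O`). -/
theorem prime_algebraMap_tensor_residue [Module.Flat W O]
    (hB : Function.Injective (algebraMap W B))
    (ε : B →+* LaurentSeries (ResidueField W))
    (hεW : ∀ w : W, ε (algebraMap W B w) = HahnSeries.C (residue W w))
    (π : W) (hπ : π ∈ maximalIdeal W)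
    (hker : ∀ b : B, ε b = 0 → ∃ b' : B, b = algebraMap W B π * b')
    (ϖ : O) (hϖ0 : ϖ ≠ 0) (hϖ : maximalIdeal O = Ideal.span {ϖ}) :
    Prime (algebraMap O (O ⊗[W] B) ϖ) := by
  refine prime_algebraMap_tensor (k := ResidueField W) (k' := ResidueField O) (ε := ε) hεW hB
    residue_surjective π ((residue_eq_zero_iff π).mpr hπ) hker residue_surjective ϖ hϖ0 ?_
  rw [← hϖ]
  exact ker_residue

end Residue

end Fermat.Agent.T1B.Cmp26
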