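/-
T1B (S44), brick CMP / (R2) `TargetHyp` (helper26): abstract half, part 3 (generic fibre, optional).

For `K = Frac W`, `E` a field over `K` and over `O` (e.g. `E = Frac O`), `B` a flat `W`-algebra with
an injective expansion `e : B →+* K((q))` (`heW : e (w • 1) = C w`):
* `genHom`            : `O ⊗[W] B →+* E((q))`, `r ⊗ b ↦ r • e b`;
* `genHom_injective`  : it is injective when `O → E` is; hence
* `isDomain_tensor`   : `O ⊗[W] B` is a domain.
-/
import Mathlib
import Fermat.Agent.T1B.Cmp26.TargetAbs

set_option autoImplicit false
set_option linter.unusedSectionVars false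

open TensorProduct ModularCurve

noncomputable section

namespace Fermat.Agent.T1B.Cmp26

section Of

variable {W : Type*} [CommRing W] {B : Type*} [CommRing B] [Algebra W B]
  {k : Type*} [Field k] [Algebra W k]
  {ε : B →+* LaurentSeries k}
  (hεW : ∀ w : W, ε (algebraMap W B w) = HahnSeries.C (algebraMap W k w))
  (k' : Type*) [Field k'] [Algebra k k'] [Algebra W k'] [IsScalarTower W k k']

/-- `specLin` is injective as soon as `redLin` is. -/
theorem specLin_injective_of (h1 : Function.Injective (redLin k ε hεW)) :
    Function.Injective (specLin k ε hεW k') := by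
  have h2 : Function.Injective (LinearMap.lTensor k' (redLin k ε hεW)) :=
    Module.Flat.lTensor_preserves_injective_linearMap _ h1
  have h3 := laurentMul_injective k k'
  have h4 := (TensorProduct.AlgebraTensorModule.cancelBaseChange W k k k' B).symm.injective
  exact h3.comp (h2.comp h4)

end Of

section Generic

variable {W : Type*} [CommRing W] [IsDomain W] {B : Type*} [CommRing B] [Algebra W B]
  (K : Type*) [Field K] [Algebra W K] [IsFractionRing W K]
  (e : B →+* LaurentSeries K)
  (heW : ∀ w : W, e (algebraMap W B w) = HahnSeries.C (algebraMap W K w))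

variable {K e} in
/-- generic fibre: `K ⊗[W] B → K((q))` is injective when `e` is (`K = Frac W`). -/
theorem redLin_injective_of_isFractionRing (he : Function.Injective e) :
    Function.Injective (redLin K e heW) := by
  rw [injective_iff_map_eq_zero]
  intro z hz
  have hone : ∀ z : K ⊗[W] B, ∃ (s : W) (b : B), s ≠ 0 ∧ z = (algebraMap W K s)⁻¹ ⊗ₜ[W] b := by
    intro z
    induction z using TensorProduct.induction_on with
    | zero => exact ⟨1, 0, one_ne_zero, (tmul_zero _ _).symm⟩
    | tmul c b =>
      obtain ⟨a, s, hs, rfl⟩ := IsFractionRing.div_surjective (A := W) c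
      refine ⟨s, a • b, nonZeroDivisors.ne_zero hs, ?_⟩
      rw [← smul_tmul, Algebra.smul_def, div_eq_mul_inv]
    | add x y hx hy =>
      obtain ⟨s, b, hs, rfl⟩ := hx
      obtain ⟨t, b', ht, rfl⟩ := hy
      have hsK : algebraMap W K s ≠ 0 := by
        rwa [Ne, map_eq_zero_iff _ (IsFractionRing.injective W K)]
      have htK : algebraMap W K t ≠ 0 := by
        rwa [Ne, map_eq_zero_iff _ (IsFractionRing.injective W K)]
      refine ⟨s * t, t • b + s • b', mul_ne_zero hs ht, ?_⟩
      rw [tmul_add, ← smul_tmul, ← smul_tmul, Algebra.smul_def, Algebra.smul_def, map_mul]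
      congr 2 <;> field_simp
  obtain ⟨s, b, hs, rfl⟩ := hone z
  have hsK : algebraMap W K s ≠ 0 := by
    rwa [Ne, map_eq_zero_iff _ (IsFractionRing.injective W K)]
  rw [redLin_tmul, ← HahnSeries.C_mul_eq_smul] at hz
  rcases mul_eq_zero.mp hz with h | h
  · exact absurd (HahnSeries.C_injective (by rw [h, map_zero])) (inv_ne_zero hsK)
  · rw [(map_eq_zero_iff e he).mp h, tmul_zero]

variable (E : Type*) [Field E] [Algebra K E] [Algebra W E] [IsScalarTower W K E]
  (O : Type*) [CommRing O] [Algebra W O] [Algebra O E] [IsScalarTower W O E]

/-- the ring hom `O ⊗[W] B → E((q))`, `r ⊗ b ↦ r • e b` (coefficients mapped to `E`). -/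
def genHom : O ⊗[W] B →+* LaurentSeries E := specHom K e heW E O

@[simp] theorem genHom_tmul (r : O) (b : B) :
    genHom K e heW E O (r ⊗ₜ b) = algebraMap O E r • coeffMap (algebraMap K E) (e b) :=
  specHom_tmul K e heW E O r b

variable {K e E O} in
/-- **`O ⊗[W] B` embeds into `E((q))`** (`B` flat over `W`, `e` and `O → E` injective). -/
theorem genHom_injective [Module.Flat W B] (he : Function.Injective e)
    (hOE : Function.Injective (algebraMap O E)) :
    Function.Injective (genHom K e heW E O) := by
  have h1 : Function.Injective (specRing K e heW E) :=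
    specLin_injective_of heW E (redLin_injective_of_isFractionRing heW he)
  have h2 : Function.Injective
      (LinearMap.rTensor B (IsScalarTower.toAlgHom W O E).toLinearMap) :=
    Module.Flat.rTensor_preserves_injective_linearMap _ hOE
  have h3 : Function.Injective
      (Algebra.TensorProduct.map (IsScalarTower.toAlgHom W O E) (AlgHom.id W B)) := by
    intro x y hxy
    exact h2 hxy
  exact h1.comp h3

variable {K e E O} in
include heW in
/-- **`O ⊗[W] B` is a domain.** -/
theorem isDomain_tensor [Module.Flat W B] (he : Function.Injective e)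
    (hOE : Function.Injective (algebraMap O E)) : IsDomain (O ⊗[W] B) :=
  Function.Injective.isDomain (genHom K e heW E O) (genHom_injective heW he hOE)

end Generic

end Fermat.Agent.T1B.Cmp26
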