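/-
T1B / TORIC50 leaf **(i) NZD-NORM**, abstract half (helper26).

`A → C` a finite projective algebra, `ϖ : A` with `A ⧸ (ϖ)` a domain, `s : C` regular modulo `ϖ`
(`s * x ∈ (ϖ) → x ∈ (ϖ)` in `C`).  Then the norm `projNorm A C s` (helper84's `Norm84.projNorm`) is
regular modulo `ϖ` in `A`.

* `projDet_ne_zero_of_injective` : over a domain, the determinant of an injective endomorphism of a
  finite projective module is nonzero (pass to the fraction field).
* `injective_lmul_quotient_tensor` : `1 ⊗ s` is a non-zero-divisor of `(A ⧸ (ϖ)) ⊗[A] C`.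
* `projNorm_not_mem_of_regular_mod`, `projNorm_regular_mod` : the statement above.
* `regular_mod_mul`, `regular_mod_of_isUnit` : closure properties of "regular modulo `ϖ`".

Imports only helper84's `Norm84.BaseChange` and helper98's `Toric98.RegLift` (both on top of Mathlib).
-/
import Fermat.Agent.T1B.Norm84.BaseChange
import Fermat.Agent.T1B.Toric98.RegLift

set_option autoImplicit false
set_option linter.unusedSectionVars false
set_option linter.style.haveILetI false

namespace Fermat.Agent.T1B.Cmp26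

open scoped TensorProduct
open Fermat.Agent.T1B.Norm84

section Det

variable {R : Type*} [CommRing R] [IsDomain R] {P : Type*} [AddCommGroup P] [Module R P]
  [Module.Finite R P] [Module.Projective R P]

/-- Over a domain, the determinant of an injective endomorphism of a finite projective module is
nonzero. -/
theorem projDet_ne_zero_of_injective (φ : P →ₗ[R] P) (hφ : Function.Injective φ) :
    projDet R P φ ≠ 0 := by
  intro h0
  have h1 := projDet_baseChange (R := R) (P := P) (FractionRing R) φ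
  rw [h0, map_zero, projDet_eq_det, LinearMap.det_eq_zero_iff_ker_ne_bot] at h1
  apply h1
  rw [LinearMap.ker_eq_bot]
  have h2 : Function.Injective (φ.lTensor (FractionRing R)) :=
    Module.Flat.lTensor_preserves_injective_linearMap φ hφ
  intro x y hxy
  apply h2
  rw [← LinearMap.baseChange_eq_ltensor]
  exact hxy

end Det

section Norm

variable {A : Type*} [CommRing A] {C : Type*} [CommRing C] [Algebra A C]

/-- If `s` is regular modulo `ϖ` in `C`, multiplication by `1 ⊗ s` is injective on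
`(A ⧸ (ϖ)) ⊗[A] C`. -/
theorem injective_lmul_quotient_tensor (ϖ : A) (s : C)
    (hs : ∀ x : C, s * x ∈ Ideal.span {algebraMap A C ϖ} → x ∈ Ideal.span {algebraMap A C ϖ}) :
    Function.Injective (Algebra.lmul (A ⧸ Ideal.span {ϖ}) ((A ⧸ Ideal.span {ϖ}) ⊗[A] C)
      ((1 : A ⧸ Ideal.span {ϖ}) ⊗ₜ[A] s)) := by
  have hinj := Toric98.injective_lTensor_quotient ϖ (LinearMap.mulLeft A s)
    (fun x hx => by
      rw [Toric98.mem_span_smul_top_iff] at hx ⊢
      exact hs x hx)
  have hmul : ∀ z : (A ⧸ Ideal.span {ϖ}) ⊗[A] C,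
      (LinearMap.mulLeft A s).lTensor (A ⧸ Ideal.span {ϖ}) z =
        Algebra.lmul (A ⧸ Ideal.span {ϖ}) ((A ⧸ Ideal.span {ϖ}) ⊗[A] C)
          ((1 : A ⧸ Ideal.span {ϖ}) ⊗ₜ[A] s) z := by
    intro z
    induction z using TensorProduct.induction_on with
    | zero => simp
    | add x y hx hy => rw [map_add, hx, hy, map_add]
    | tmul a b =>
      rw [LinearMap.lTensor_tmul, LinearMap.mulLeft_apply]
      show a ⊗ₜ[A] (s * b) = (1 : A ⧸ Ideal.span {ϖ}) ⊗ₜ[A] s * a ⊗ₜ[A] b
      rw [Algebra.TensorProduct.tmul_mul_tmul, one_mul]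
  intro x y hxy
  apply hinj
  rw [hmul, hmul]
  exact hxy

variable [Module.Finite A C] [Module.Projective A C]

/-- **NZD-NORM, core.**  `A ⧸ (ϖ)` a domain, `s : C` regular modulo `ϖ`: the norm of `s` is not
divisible by `ϖ`. -/
theorem projNorm_not_mem_of_regular_mod (ϖ : A) (hϖ : (Ideal.span {ϖ}).IsPrime) (s : C)
    (hs : ∀ x : C, s * x ∈ Ideal.span {algebraMap A C ϖ} → x ∈ Ideal.span {algebraMap A C ϖ}) :
    projNorm A C s ∉ Ideal.span {ϖ} := by
  haveI : IsDomain (A ⧸ Ideal.span {ϖ}) := (Ideal.Quotient.isDomain_iff_prime _).2 hϖ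
  have hbc := projNorm_baseChange (R := A) (C := C) (A ⧸ Ideal.span {ϖ}) s
  have hne := projDet_ne_zero_of_injective _ (injective_lmul_quotient_tensor ϖ s hs)
  rw [← projNorm_apply, hbc] at hne
  intro hmem
  exact hne (Ideal.Quotient.eq_zero_iff_mem.2 hmem)

/-- **NZD-NORM.**  `A ⧸ (ϖ)` a domain, `s : C` regular modulo `ϖ`: the norm of `s` is regular
modulo `ϖ`. -/
theorem projNorm_regular_mod (ϖ : A) (hϖ : (Ideal.span {ϖ}).IsPrime) (s : C)
    (hs : ∀ x : C, s * x ∈ Ideal.span {algebraMap A C ϖ} → x ∈ Ideal.span {algebraMap A C ϖ})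
    (x : A) (hx : projNorm A C s * x ∈ Ideal.span {ϖ}) : x ∈ Ideal.span {ϖ} :=
  (hϖ.mem_or_mem hx).resolve_left (projNorm_not_mem_of_regular_mod ϖ hϖ s hs)

end Norm

section Closure

variable {B : Type*} [CommRing B] (I : Ideal B)

/-- a product of elements regular modulo `I` is regular modulo `I`. -/
theorem regular_mod_mul {a b : B} (ha : ∀ x, a * x ∈ I → x ∈ I) (hb : ∀ x, b * x ∈ I → x ∈ I)
    (x : B) (hx : a * b * x ∈ I) : x ∈ I :=
  hb x (ha _ (by rwa [mul_assoc] at hx))

/-- a unit is regular modulo `I`. -/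
theorem regular_mod_of_isUnit {a : B} (ha : IsUnit a) (x : B) (hx : a * x ∈ I) : x ∈ I := by
  obtain ⟨u, rfl⟩ := ha
  have : x = (↑u⁻¹ : B) * ((u : B) * x) := by rw [← mul_assoc, Units.inv_mul, one_mul]
  rw [this]
  exact I.mul_mem_left _ hx

end Closure

end Fermat.Agent.T1B.Cmp26
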