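/-
T1B / TORIC50 leaf **(i) NZD-NORM**, consumer half (helper26).

For a finite projective morphism `M : ChartMor W B0 B1 B01 B0' B1' B01'` of two-chart data, a toric
base `H : ToricBase D π` on the source and `B01' ⧸ π` a domain (`Prime (algebraMap W B01' π)`, e.g. the
field `prime01` of `Cmp15.TargetHyp D' W π`), the three norms
`N(s01)`, `ρ0' (N s0)`, `ρ1' (N s1)` are regular modulo `π` in `B01'`: these are the fields
`reg01`, `reg0`, `reg1` of helper84's `Norm84.Iota.ResNodeHyp`, and (via helper98's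
`Toric98.mem_nonZeroDivisors_tmul`) the hypotheses `nz01`, `nz0`, `nz1` of `NodeHyp.of_rational`.

* `wnorm_regular_mod` : hom form of `projNorm_regular_mod`.
* `rho0_wnorm`, `rho1_wnorm` : the norm commutes with the restriction to the overlap.
* `ToricNorm.reg01`, `.reg0`, `.reg1` : the three `W`-level statements.
* `ToricNorm.nz01`, `.nz0`, `.nz1` : the three `Λ`-level statements.
* `resNodeHyp_of_prime` : constructor of `ResNodeHyp` with the `reg` fields discharged.
(`Prime (algebraMap W B01' π)` from `Cmp15.TargetHyp D' W π`: see `NzdNormTarget.lean`.)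
-/
import Fermat.Agent.T1B.Cmp26.NzdNorm
import Fermat.Agent.T1B.Norm84.Iota9

set_option autoImplicit false
set_option linter.unusedSectionVars false
set_option linter.style.haveILetI false

namespace Fermat.Agent.T1B.Cmp26

open Fermat.Agent.T1.CechFormal70 Fermat.Agent.T1B.Norm84 Fermat.Agent.T1B.Norm84.Iota
open Fermat.Agent.T1B.Toric11 Fermat.Agent.T1B.Toric98 Fermat.Agent.T1B.Toric50.Wrap
open scoped TensorProduct
open IsLocalRing

universe u

section HomForm

variable {W A C : Type*} [CommRing W] [CommRing A] [CommRing C] [Algebra W A] [Algebra W C]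
  (α : A →ₐ[W] C) (hfin : (α : A →+* C).Finite)
  (hproj : letI := (α : A →+* C).toAlgebra; Module.Projective A C)

/-- **NZD-NORM, hom form.**  `A ⧸ π` a domain, `s : C` regular modulo `π`: the norm `wnorm α s` is
regular modulo `π` in `A`. -/
theorem wnorm_regular_mod (π : W) (hprime : (Ideal.span {algebraMap W A π}).IsPrime) (s : C)
    (hs : ∀ x : C, s * x ∈ Ideal.span {algebraMap W C π} → x ∈ Ideal.span {algebraMap W C π})
    (x : A) (hx : wnorm α hfin hproj s * x ∈ Ideal.span {algebraMap W A π}) :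
    x ∈ Ideal.span {algebraMap W A π} := by
  letI := (α : A →+* C).toAlgebra
  haveI : Module.Finite A C := hfin
  haveI : Module.Projective A C := hproj
  have hπ : algebraMap A C (algebraMap W A π) = algebraMap W C π := α.commutes π
  exact projNorm_regular_mod (algebraMap W A π) hprime s (by rw [hπ]; exact hs) x hx

theorem wnorm_not_mem (π : W) (hprime : (Ideal.span {algebraMap W A π}).IsPrime) (s : C)
    (hs : ∀ x : C, s * x ∈ Ideal.span {algebraMap W C π} → x ∈ Ideal.span {algebraMap W C π}) :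
    wnorm α hfin hproj s ∉ Ideal.span {algebraMap W A π} := by
  letI := (α : A →+* C).toAlgebra
  haveI : Module.Finite A C := hfin
  haveI : Module.Projective A C := hproj
  have hπ : algebraMap A C (algebraMap W A π) = algebraMap W C π := α.commutes π
  exact projNorm_not_mem_of_regular_mod (algebraMap W A π) hprime s (by rw [hπ]; exact hs)

end HomForm

section ChartMorNorm

variable {W B0 B1 B01 B0' B1' B01' : Type u} [CommRing W]
  [CommRing B0] [CommRing B1] [CommRing B01] [Algebra W B0] [Algebra W B1] [Algebra W B01]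
  [CommRing B0'] [CommRing B1'] [CommRing B01'] [Algebra W B0'] [Algebra W B1'] [Algebra W B01']
  [Algebra B0 B01] [Algebra B1 B01] [IsScalarTower W B0 B01] [IsScalarTower W B1 B01]
  [Algebra B0' B01'] [Algebra B1' B01'] [IsScalarTower W B0' B01'] [IsScalarTower W B1' B01']
  (M : ChartMor W B0 B1 B01 B0' B1' B01')

/-- the norm commutes with the restriction from chart `0` to the overlap. -/
theorem rho0_wnorm (b : B0) :
    algebraMap B0' B01' (wnorm M.α0 M.fin0 M.proj0 b) =
      wnorm M.α01 M.finite01 M.projective01 (algebraMap B0 B01 b) := by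
  letI := M.alg0; letI := M.alg01; letI := M.algc0
  haveI := M.tower0; haveI := M.tower0'; haveI := M.finite0; haveI := M.projective0
  haveI := M.finite01; haveI := M.projective01; haveI := M.isPushout0
  exact (projNorm_of_isPushout (R := B0') (S := B01') (C := B0) (C' := B01) b).symm

/-- the norm commutes with the restriction from chart `1` to the overlap. -/
theorem rho1_wnorm (b : B1) :
    algebraMap B1' B01' (wnorm M.α1 M.fin1 M.proj1 b) =
      wnorm M.α01 M.finite01 M.projective01 (algebraMap B1 B01 b) := by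
  letI := M.alg1; letI := M.alg01; letI := M.algc1
  haveI := M.tower1; haveI := M.tower1'; haveI := M.finite1; haveI := M.projective1
  haveI := M.finite01; haveI := M.projective01; haveI := M.isPushout1
  exact (projNorm_of_isPushout (R := B1') (S := B01') (C := B1) (C' := B01) b).symm

end ChartMorNorm

section Toric

variable {W B0 B1 B01 B0' B1' B01' : Type u} [CommRing W]
  [CommRing B0] [CommRing B1] [CommRing B01] [Algebra W B0] [Algebra W B1] [Algebra W B01]
  [CommRing B0'] [CommRing B1'] [CommRing B01'] [Algebra W B0'] [Algebra W B1'] [Algebra W B01']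
  [Algebra B0 B01] [Algebra B1 B01] [IsScalarTower W B0 B01] [IsScalarTower W B1 B01]
  [Algebra B0' B01'] [Algebra B1' B01'] [IsScalarTower W B0' B01'] [IsScalarTower W B1' B01']
  {g g' : ℕ} {D : CechData W B0 B1 B01 g} {D' : CechData W B0' B1' B01' g'}
  (hρ0 : ∀ x, D.ρ0 x = algebraMap B0 B01 x) (hρ1 : ∀ x, D.ρ1 x = algebraMap B1 B01 x)
  (hρ0' : ∀ x, D'.ρ0 x = algebraMap B0' B01' x) (hρ1' : ∀ x, D'.ρ1 x = algebraMap B1' B01' x)
  {π : W} (H : ToricBase D π) (M : ChartMor W B0 B1 B01 B0' B1' B01')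

namespace ToricNorm

include hρ0 hρ0' in
/-- `ρ0' (N s0) = N s01`. -/
theorem rho0_norm_s0 :
    D'.ρ0 (wnorm M.α0 M.fin0 M.proj0 H.s0) = wnorm M.α01 M.finite01 M.projective01 H.s01 := by
  rw [hρ0', rho0_wnorm, ← hρ0, H.hs0]

include hρ1 hρ1' in
/-- `ρ1' (N s1) = N v * N s01` for a unit `v`. -/
theorem exists_rho1_norm_s1 : ∃ v : B01'ˣ,
    D'.ρ1 (wnorm M.α1 M.fin1 M.proj1 H.s1) =
      v * wnorm M.α01 M.finite01 M.projective01 H.s01 := by
  obtain ⟨v, hv⟩ := H.hs1
  refine ⟨Units.map (wnorm M.α01 M.finite01 M.projective01) v, ?_⟩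
  rw [hρ1', rho1_wnorm, ← hρ1, hv, map_mul]
  rfl

variable (hprime : Prime (algebraMap W B01' π))
include hprime

theorem isPrime_span : (Ideal.span {algebraMap W B01' π}).IsPrime :=
  (Ideal.span_singleton_prime hprime.ne_zero).2 hprime

/-- **NZD-NORM (01)**: `N(s01)` is regular modulo `π` in `B01'`. -/
theorem reg01 (x : B01')
    (hx : wnorm M.α01 M.finite01 M.projective01 H.s01 * x ∈ Ideal.span {algebraMap W B01' π}) :
    x ∈ Ideal.span {algebraMap W B01' π} :=
  wnorm_regular_mod M.α01 M.finite01 M.projective01 π (isPrime_span hprime) H.s01 H.reg01 x hx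

include hρ0 hρ0' in
/-- **NZD-NORM (0)**: `ρ0' (N s0)` is regular modulo `π` in `B01'`. -/
theorem reg0 (x : B01')
    (hx : D'.ρ0 (wnorm M.α0 M.fin0 M.proj0 H.s0) * x ∈ Ideal.span {algebraMap W B01' π}) :
    x ∈ Ideal.span {algebraMap W B01' π} := by
  rw [rho0_norm_s0 hρ0 hρ0' H M] at hx
  exact reg01 H M hprime x hx

include hρ1 hρ1' in
/-- **NZD-NORM (1)**: `ρ1' (N s1)` is regular modulo `π` in `B01'`. -/
theorem reg1 (x : B01')
    (hx : D'.ρ1 (wnorm M.α1 M.fin1 M.proj1 H.s1) * x ∈ Ideal.span {algebraMap W B01' π}) :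
    x ∈ Ideal.span {algebraMap W B01' π} := by
  obtain ⟨v, hv⟩ := exists_rho1_norm_s1 hρ1 hρ1' H M
  rw [hv] at hx
  exact regular_mod_mul _ (regular_mod_of_isUnit _ v.isUnit) (reg01 H M hprime) x hx

variable [hmax : (Ideal.span {π}).IsMaximal] [Module.Flat W B01']
  (Λ : Type*) [CommRing Λ] [Algebra W Λ] (N : ℕ) (hN : algebraMap W Λ π ^ N = 0)
include hN

/-- the hypothesis `nz01` of `NodeHyp.of_rational` (flatness: `haveI := D'.flat01`). -/
theorem nz01 : (1 : Λ) ⊗ₜ[W] wnorm M.α01 M.finite01 M.projective01 H.s01 ∈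
    nonZeroDivisors (Λ ⊗[W] B01') :=
  mem_nonZeroDivisors_tmul π _ (reg01 H M hprime) Λ N hN

include hρ0 hρ0' in
/-- the hypothesis `nz0` of `NodeHyp.of_rational`. -/
theorem nz0 : (1 : Λ) ⊗ₜ[W] D'.ρ0 (wnorm M.α0 M.fin0 M.proj0 H.s0) ∈
    nonZeroDivisors (Λ ⊗[W] B01') :=
  mem_nonZeroDivisors_tmul π _ (reg0 hρ0 hρ0' H M hprime) Λ N hN

include hρ1 hρ1' in
/-- the hypothesis `nz1` of `NodeHyp.of_rational`. -/
theorem nz1 : (1 : Λ) ⊗ₜ[W] D'.ρ1 (wnorm M.α1 M.fin1 M.proj1 H.s1) ∈
    nonZeroDivisors (Λ ⊗[W] B01') :=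
  mem_nonZeroDivisors_tmul π _ (reg1 hρ1 hρ1' H M hprime) Λ N hN

end ToricNorm

end Toric

section Res

variable {W B0 B1 B01 B0' B1' B01' : Type u} [CommRing W]
  [CommRing B0] [CommRing B1] [CommRing B01] [Algebra W B0] [Algebra W B1] [Algebra W B01]
  [CommRing B0'] [CommRing B1'] [CommRing B01'] [Algebra W B0'] [Algebra W B1'] [Algebra W B01']
  [Algebra B0 B01] [Algebra B1 B01] [IsScalarTower W B0 B01] [IsScalarTower W B1 B01]
  [Algebra B0' B01'] [Algebra B1' B01'] [IsScalarTower W B0' B01'] [IsScalarTower W B1' B01']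
  {g g' : ℕ} {D : CechData W B0 B1 B01 g} {D' : CechData W B0' B1' B01' g'}
  (hρ0 : ∀ x, D.ρ0 x = algebraMap B0 B01 x) (hρ1 : ∀ x, D.ρ1 x = algebraMap B1 B01 x)
  (hρ0' : ∀ x, D'.ρ0 x = algebraMap B0' B01' x) (hρ1' : ∀ x, D'.ρ1 x = algebraMap B1' B01' x)
  {π : W} [hmax : (Ideal.span {π}).IsMaximal] [Algebra.FiniteType W B0]
  [Algebra.FiniteType W B1] [Algebra.FiniteType W B01]
  (H : ToricBase D π) {r : ℕ} (N : NodeSys H (Fin r))
  (O : Type u) [CommRing O] [IsDomain O] [IsDiscreteValuationRing O] [Algebra W O]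
  (hO : algebraMap W O π ∈ maximalIdeal O)
  (M : ChartMor W B0 B1 B01 B0' B1' B01')

include hρ0 hρ1 hρ0' hρ1' in
/-- **Constructor of helper84's `ResNodeHyp` with the three `reg` fields discharged** from
`B01' ⧸ π` being a domain. -/
theorem resNodeHyp_of_prime (hprime : Prime (algebraMap W B01' π))
    (irr0 : NilPrime (Tr (maximalIdeal O) 1 ⊗[W] B0'))
    (irr1 : NilPrime (Tr (maximalIdeal O) 1 ⊗[W] B1'))
    (one0 :
      haveI := isLocalRing_tr_succ O 0
      haveI := isArtinianRing_tr O 1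
      NodeFibHyp M.α0 (Λ := Tr (maximalIdeal O) 1)
        (H.glueData (Tr (maximalIdeal O) 1) (isNilpotent_pi_tr O hO 1)).n0
        (N.node (Tr (maximalIdeal O) 1) (isNilpotent_pi_tr O hO 1)))
    (one1 :
      haveI := isLocalRing_tr_succ O 0
      haveI := isArtinianRing_tr O 1
      NodeFibHyp M.α1 (Λ := Tr (maximalIdeal O) 1)
        (H.glueData (Tr (maximalIdeal O) 1) (isNilpotent_pi_tr O hO 1)).n1
        (N.node (Tr (maximalIdeal O) 1) (isNilpotent_pi_tr O hO 1))) :
    ResNodeHyp H N O hO M D' where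
  reg01 := ToricNorm.reg01 H M hprime
  reg0 := ToricNorm.reg0 hρ0 hρ0' H M hprime
  reg1 := ToricNorm.reg1 hρ1 hρ1' H M hprime
  irr0 := irr0
  irr1 := irr1
  one0 := one0
  one1 := one1

end Res

end Fermat.Agent.T1B.Cmp26
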