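/-
T1B / TORIC50 leaf **(i) NZD-NORM**, bridge to helper15's `Cmp15.TargetHyp` (helper26).

`Cmp15.TargetHyp D' W π` (the target hypotheses at `O = W`; e.g. `Cmp15.targetHyp_of_model` at
`O = W`) gives `Prime (algebraMap W B_j' π)` for the three target chart rings, hence the hypothesis
`hprime` of `Cmp26.ToricNorm.reg01/reg0/reg1/nz01/nz0/nz1` and `Cmp26.resNodeHyp_of_prime`.

More generally `prime_of_prime_tensor_self` : `Prime (algebraMap W (W ⊗[W] B) π) → Prime (algebraMap W B π)`.
-/
import Fermat.Agent.T1B.Cmp26.NzdNormInst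
import Fermat.Agent.T1B.Cmp15.Core

set_option autoImplicit false
set_option linter.unusedSectionVars false
set_option linter.style.haveILetI false

namespace Fermat.Agent.T1B.Cmp26

open Fermat.Agent.T1.CechFormal70 Fermat.Agent.T1B.Norm84 Fermat.Agent.T1B.Norm84.Iota
open Fermat.Agent.T1B.Toric11 Fermat.Agent.T1B.Toric98 Fermat.Agent.T1B.Toric50.Wrap
open scoped TensorProduct
open IsLocalRing

universe u

section Lid

variable {W : Type*} [CommRing W] (B : Type*) [CommRing B] [Algebra W B]

/-- `W ⊗[W] B = B`: primality of `π` descends. -/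
theorem prime_of_prime_tensor_self {π : W} (h : Prime (algebraMap W (W ⊗[W] B) π)) :
    Prime (algebraMap W B π) := by
  have h1 := (MulEquiv.prime_iff (Algebra.TensorProduct.lid W B).toMulEquiv).2 h
  have h2 : (Algebra.TensorProduct.lid W B).toMulEquiv (algebraMap W (W ⊗[W] B) π) =
      algebraMap W B π := (Algebra.TensorProduct.lid W B).commutes π
  rwa [h2] at h1

end Lid

section Target

variable {W B0' B1' B01' : Type u} [CommRing W]
  [CommRing B0'] [CommRing B1'] [CommRing B01'] [Algebra W B0'] [Algebra W B1'] [Algebra W B01']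
  {g' : ℕ} {D' : CechData W B0' B1' B01' g'} {π : W}

theorem prime01_of_targetHyp (T : Cmp15.TargetHyp D' W π) : Prime (algebraMap W B01' π) :=
  prime_of_prime_tensor_self B01' T.prime01

theorem prime0_of_targetHyp (T : Cmp15.TargetHyp D' W π) : Prime (algebraMap W B0' π) :=
  prime_of_prime_tensor_self B0' T.prime0

theorem prime1_of_targetHyp (T : Cmp15.TargetHyp D' W π) : Prime (algebraMap W B1' π) :=
  prime_of_prime_tensor_self B1' T.prime1

end Target

end Fermat.Agent.T1B.Cmp26
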